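import Fermat.Agent.S20.H800.Fund
import Fermat.Agent.S20.H428.HomBasis
import Fermat.Agent.S20.F2_helper658

/-!
# S20 / helper800 : `Γ₀(N)` has a fundamental system (Skeleton `exists_fundSystem` for `Γ₀(N)`)

Combines the landed `H428.exists_homBasis` (generation + freeness), `F658` (leaf F) and
`H800.fundSystem_of_gradedBasis`.
-/

set_option autoImplicit false

noncomputable section

namespace Fermat.Agent.S20.H800

open Fermat.Agent.S20
open UpperHalfPlane ModularForm CongruenceSubgroup MatrixGroups Filter EisensteinSeries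
open scoped Manifold Topology Real

/-- A homogeneous basis in the sense of `Defs.lean` is a graded basis. -/
theorem gradedBasis_of_isHomBasis {N : ℕ} {ι : Type} [Fintype ι] {k : ι → ℤ} {F : ι → ℍ → ℂ}
    (hB : IsHomBasis N k F) : GradedBasis (Gamma0 N) k F :=
  GradedBasis.of_fintype (fun j => hB.mem j) (fun w f hf => hB.span w f hf)
    (fun w a ha h => hB.indep w a ha h)

/-- `-1 ∈ Γ₀(N)`. -/
theorem neg_one_mem_Gamma0 (N : ℕ) : (-1 : SL(2, ℤ)) ∈ Gamma0 N := by
  rw [Gamma0_mem]; simp

/-- Leaf F in the form used by the captain's skeleton. -/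
theorem exists_form_injective_ev (N : ℕ) [NeZero N] :
    ∃ f₀ ∈ MF (Gamma0 N) 12, ∃ z₀ : ℍ, Function.Injective (ev (Gamma0 N) 12 z₀ f₀) :=
  ⟨F658.f0 N, F658.f0_isMF_raw N, F658.z0 N, F658.f0_conj_injective N⟩

/-- **`Γ₀(N)` has a fundamental system.** -/
theorem exists_fundSystem_Gamma0 (N : ℕ) [NeZero N] : Nonempty (FundSystem (Gamma0 N)) := by
  obtain ⟨ι, _, k, F, hB⟩ := H428.exists_homBasis N
  exact fundSystem_of_gradedBasis (neg_one_mem_Gamma0 N) (gradedBasis_of_isHomBasis hB)
    (exists_form_injective_ev N)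

end Fermat.Agent.S20.H800
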