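import Fermat.Agent.S20.H800.JetIndep
import Fermat.Agent.S20.KerEv_helper292
import Fermat.Agent.S20.H920.CardFund

/-!
# S20 / helper800 : from a graded basis to a fundamental system

`fundSystem_of_gradedBasis` : a homogeneous family generating `⊕ₖ MF Γ k` freely over the level
one forms (any index type, no finiteness assumption) is a `FundSystem Γ` — all the other fields
(`indep`, finiteness, `jet`, `hasJet`, `jet_indep`, `card_eq`) are consequences.
So `exists_fundSystem` is reduced to the existence of a `GradedBasis`.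
-/

set_option autoImplicit false

noncomputable section

namespace Fermat.Agent.S20.H800

open Fermat.Agent.S20
open UpperHalfPlane ModularForm CongruenceSubgroup MatrixGroups Filter EisensteinSeries
open scoped Manifold Topology Real

variable {Γ : Subgroup SL(2, ℤ)}

/-- Reindexing a graded basis along an equivalence. -/
theorem GradedBasis.reindex {J J' : Type*} {wt : J → ℤ} {F : J → ℍ → ℂ}
    (B : GradedBasis Γ wt F) (e : J' ≃ J) : GradedBasis Γ (wt ∘ e) (F ∘ e) := by
  refine ⟨fun i => B.mem (e i), fun k f hf => ?_, fun k s' c' hc' hsum i hi => ?_⟩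
  · obtain ⟨s, c, hc, hfc⟩ := B.gen k f hf
    refine ⟨s.map e.symm.toEmbedding, fun i => c (e i), fun i hi => ?_, ?_⟩
    · rw [Finset.mem_map] at hi
      obtain ⟨j, hj, rfl⟩ := hi
      simpa using hc j hj
    · rw [hfc, Finset.sum_map]
      exact Finset.sum_congr rfl fun j _ => by simp
  · have h1 := B.free k (s'.map e.toEmbedding) (fun j => c' (e.symm j))
      (fun j hj => by
        rw [Finset.mem_map] at hj
        obtain ⟨i, hi, rfl⟩ := hj
        simpa using hc' i hi)
      (by
        rw [Finset.sum_map]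
        simpa using hsum) (e i) (Finset.mem_map_of_mem _ hi)
    simpa using h1

/-- Local independence of a graded basis, with all inputs discharged by landed files. -/
theorem GradedBasis.indep [Γ.FiniteIndex] {J : Type*} {wt : J → ℤ} {F : J → ℍ → ℂ}
    (B : GradedBasis Γ wt F) (hneg : -1 ∈ Γ) (τ : ℍ) :
    LinearIndependent ℂ fun j => ev Γ (wt j) τ (F j) :=
  indep_ev_of_levelOneDivisor B hneg (fun hP _ _ hf h0 => KerEv292.ker_ev hP hf h0)
    L1.levelOneDivisor_E₆ L1.ST_smul_rhoPt L1.levelOneDivisor_E₄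
    (fun z₀ h4 h6 => ⟨12, _, L1.levelOneDivisor_generic z₀ h4 h6⟩) τ

/-- The index type of a graded basis is finite. -/
theorem GradedBasis.finite [Γ.FiniteIndex] {J : Type*} {wt : J → ℤ} {F : J → ℍ → ℂ}
    (B : GradedBasis Γ wt F) (hneg : -1 ∈ Γ) : Finite J :=
  finite_of_indep (B.indep hneg UpperHalfPlane.I)

/-- The `Fintype` form of generation. -/
theorem GradedBasis.gen_fintype {J : Type*} [Fintype J] {wt : J → ℤ} {F : J → ℍ → ℂ}
    (B : GradedBasis Γ wt F) (k : ℤ) (f : ℍ → ℂ) (hf : f ∈ MF Γ k) :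
    ∃ c : J → ℍ → ℂ, (∀ j, c j ∈ MF ⊤ (k - wt j)) ∧ f = ∑ j, c j * F j := by
  classical
  obtain ⟨s, c, hc, hfc⟩ := B.gen k f hf
  refine ⟨fun j => if j ∈ s then c j else 0, fun j => ?_, ?_⟩
  · beta_reduce
    split_ifs with h
    · exact hc j h
    · exact Submodule.zero_mem _
  · rw [hfc, ← Finset.sum_subset (Finset.subset_univ s)]
    · exact Finset.sum_congr rfl fun j hj => by beta_reduce; rw [if_pos hj]
    · intro j _ hj
      beta_reduce
      rw [if_neg hj, zero_mul]

/-- **A graded basis is a fundamental system.** -/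
theorem fundSystem_of_gradedBasis [Γ.FiniteIndex] (hneg : -1 ∈ Γ) {J : Type*} {wt : J → ℤ}
    {F : J → ℍ → ℂ} (B : GradedBasis Γ wt F) {w₀ : ℤ}
    (hF : ∃ f₀ ∈ MF Γ w₀, ∃ z₀ : ℍ, Function.Injective (ev Γ w₀ z₀ f₀)) :
    Nonempty (FundSystem Γ) := by
  classical
  have hfin : Finite J := B.finite hneg
  set e : Fin (Nat.card J) ≃ J := (Finite.equivFin J).symm with he
  have B' : GradedBasis Γ (wt ∘ e) (F ∘ e) := B.reindex e
  have hjet : ∀ i : Fin (Nat.card J), ∃ v, HasJet Γ ((wt ∘ e) i) ((F ∘ e) i) v :=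
    fun i => Jets759.exists_hasJet (B'.mem i)
  choose jet hjet using hjet
  exact ⟨{
    J := Fin (Nat.card J)
    wt := wt ∘ e
    F := F ∘ e
    mem := B'.mem
    gen := B'.gen_fintype
    indep := B'.indep hneg
    jet := jet
    hasJet := hjet
    jet_indep := indep_jet B' hneg jet hjet
    card_eq := H920.card_eq_card_X (wt ∘ e) (F ∘ e) B'.gen_fintype
      (B'.indep hneg UpperHalfPlane.I) hF }⟩

end Fermat.Agent.S20.H800
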