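import Fermat.Agent.S20.H800.LocalIndep

/-!
# S20 / helper800 : local independence of a graded basis at every point of `ℍ`

Main results:
* `indep_ev` : for a `GradedBasis Γ wt F` (any index type), `-1 ∈ Γ`, and the division property
  (`DivAt`) at `i`, at the fixed point `ρ` of `S * T`, and at every generic point, the vectors of
  conjugates `ev Γ (wt j) τ (F j)` are linearly independent at EVERY `τ : ℍ`.
* `indep_ev_of_levelOneDivisor` : the same with hypotheses in the shape of the captain's skeleton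
  (`LevelOneDivisor` + `ker_ev`).
* `finite_index_of_gradedBasis`, `card_le_of_gradedBasis` : the index type is finite, of cardinality
  at most the index of `Γ`.
-/

set_option autoImplicit false

noncomputable section

namespace Fermat.Agent.S20.H800

open Fermat.Agent.S20
open UpperHalfPlane ModularForm CongruenceSubgroup MatrixGroups Filter EisensteinSeries
open scoped Manifold Topology Real

variable {Γ : Subgroup SL(2, ℤ)} {J : Type*} {wt : J → ℤ} {F : J → ℍ → ℂ}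

lemma S_smul_I : ModularGroup.S • UpperHalfPlane.I = UpperHalfPlane.I := by
  rw [modular_S_smul]
  ext
  simp [UpperHalfPlane.I]

lemma denom_S_I : denom ModularGroup.S UpperHalfPlane.I = Complex.I := by
  rw [ModularGroup.denom_S]
  rfl

lemma I_zpow_sep {a b : ℤ} (ha : Even a) (hb : Even b) (h : Complex.I ^ a = Complex.I ^ b) :
    (4 : ℤ) ∣ a - b := by
  obtain ⟨m, hm⟩ := ha.sub hb
  have h1 : Complex.I ^ (a - b) = 1 := by
    rw [zpow_sub₀ Complex.I_ne_zero, h, div_self (zpow_ne_zero _ Complex.I_ne_zero)]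
  have h2 : Complex.I ^ (a - b) = (-1 : ℂ) ^ m := by
    rw [hm, ← two_mul, zpow_mul, zpow_ofNat, Complex.I_sq]
  rw [h2] at h1
  rcases Int.even_or_odd m with he | ho
  · obtain ⟨r, hr⟩ := he
    exact ⟨r, by omega⟩
  · rw [Odd.neg_one_zpow ho] at h1
    norm_num at h1

lemma coe_ST : ((ModularGroup.S * ModularGroup.T : SL(2, ℤ)) : Matrix (Fin 2) (Fin 2) ℤ) =
    !![0, -1; 1, 1] := by
  rw [Matrix.SpecialLinearGroup.coe_mul, ModularGroup.coe_S, ModularGroup.coe_T]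
  simp

lemma ST_denom (z : ℍ) :
    denom ((ModularGroup.S * ModularGroup.T : SL(2, ℤ))) z = (z : ℂ) + 1 := by
  rw [ModularGroup.denom_apply, coe_ST]
  simp

lemma ST_fixed_eq {ρ : ℍ} (hρ : (ModularGroup.S * ModularGroup.T) • ρ = ρ) :
    (ρ : ℂ) ^ 2 + ρ + 1 = 0 := by
  have h1 : (((ModularGroup.S * ModularGroup.T : SL(2, ℤ)) • ρ : ℍ) : ℂ) = ρ := by rw [hρ]
  rw [coe_specialLinearGroup_apply, coe_ST] at h1
  have hd : ((ρ : ℂ) + 1) ≠ 0 := by
    rw [← ST_denom]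
    exact denom_ne_zero _ ρ
  simp at h1
  field_simp at h1
  linear_combination -h1

lemma rho_zpow_eq_one {ρ : ℍ} (hρ : (ρ : ℂ) ^ 2 + ρ + 1 = 0) {m : ℤ} (h : (ρ : ℂ) ^ m = 1) :
    (3 : ℤ) ∣ m := by
  have h0 : (ρ : ℂ) ≠ 0 := ne_zero ρ
  have h3 : (ρ : ℂ) ^ (3 : ℤ) = 1 := by
    rw [zpow_ofNat]
    linear_combination ((ρ : ℂ) - 1) * hρ
  have hm : (ρ : ℂ) ^ m = (ρ : ℂ) ^ (m % 3) := by
    conv_lhs => rw [← Int.mul_ediv_add_emod m 3]
    rw [zpow_add₀ h0, zpow_mul, h3, one_zpow, one_mul]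
  rw [hm] at h
  have hr0 : 0 ≤ m % 3 := Int.emod_nonneg m (by norm_num)
  have hr3 : m % 3 < 3 := Int.emod_lt_of_pos m (by norm_num)
  have him : (ρ : ℂ).im ≠ 0 := ρ.im_ne_zero
  have hcases : m % 3 = 0 ∨ m % 3 = 1 ∨ m % 3 = 2 := by omega
  rcases hcases with h' | h' | h'
  · exact Int.dvd_of_emod_eq_zero h'
  · exfalso
    rw [h', zpow_one] at h
    apply him
    rw [h]
    simp
  · exfalso
    rw [h'] at h
    have h5 : (ρ : ℂ) ^ (2 : ℤ) = (ρ : ℂ) ^ 2 := zpow_ofNat _ 2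
    rw [h5] at h
    have h4 : (ρ : ℂ) = -2 := by linear_combination hρ - h
    apply him
    rw [h4]
    simp

lemma rho_add_one_zpow_sep {ρ : ℍ} (hρ : (ρ : ℂ) ^ 2 + ρ + 1 = 0) {a b : ℤ} (ha : Even a)
    (hb : Even b) (h : ((ρ : ℂ) + 1) ^ a = ((ρ : ℂ) + 1) ^ b) : (6 : ℤ) ∣ a - b := by
  have hε : ((ρ : ℂ) + 1) ≠ 0 := by
    intro h0
    have : (ρ : ℂ) = -1 := by linear_combination h0
    have him : (ρ : ℂ).im ≠ 0 := ρ.im_ne_zero
    apply him
    rw [this]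
    simp
  obtain ⟨m, hm⟩ := ha.sub hb
  have h1 : ((ρ : ℂ) + 1) ^ (a - b) = 1 := by
    rw [zpow_sub₀ hε, h, div_self (zpow_ne_zero _ hε)]
  have h2 : ((ρ : ℂ) + 1) ^ (a - b) = (ρ : ℂ) ^ m := by
    rw [hm, ← two_mul, zpow_mul, zpow_ofNat]
    congr 1
    linear_combination hρ
  rw [h2] at h1
  obtain ⟨r, hr⟩ := rho_zpow_eq_one hρ h1
  exact ⟨r, by omega⟩

lemma E₄_ne_zero_of_E₆_eq_zero {z : ℍ} (h : E₆ z = 0) : E₄ z ≠ 0 := by
  intro h4
  have := discriminant_eq_E₄_cube_sub_E₆_sq z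
  rw [h, h4] at this
  exact discriminant_ne_zero z (by rw [this]; simp)

lemma E₆_ne_zero_of_E₄_eq_zero {z : ℍ} (h : E₄ z = 0) : E₆ z ≠ 0 := by
  intro h6
  have := discriminant_eq_E₄_cube_sub_E₆_sq z
  rw [h, h6] at this
  exact discriminant_ne_zero z (by rw [this]; simp)

/-- Local independence at `i`. -/
theorem indep_at_I (B : GradedBasis Γ wt F) (hneg : -1 ∈ Γ)
    (hdiv : DivAt Γ UpperHalfPlane.I 6 ⇑E₆) :
    LinearIndependent ℂ fun j => ev Γ (wt j) UpperHalfPlane.I (F j) := by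
  refine indep_fixed B hdiv ModularGroup.S S_smul_I (n := 4) (by norm_num) E₄_mem
    (E₄_ne_zero_of_E₆_eq_zero hdiv.zero) fun j j' h => ?_
  rw [denom_S_I] at h
  exact I_zpow_sep (B.wt_even hneg j) (B.wt_even hneg j') h

/-- Local independence at the fixed point `ρ` of `S * T`. -/
theorem indep_at_rho (B : GradedBasis Γ wt F) (hneg : -1 ∈ Γ) {ρ : ℍ}
    (hρ : (ModularGroup.S * ModularGroup.T) • ρ = ρ) (hdiv : DivAt Γ ρ 4 ⇑E₄) :
    LinearIndependent ℂ fun j => ev Γ (wt j) ρ (F j) := by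
  refine indep_fixed B hdiv (ModularGroup.S * ModularGroup.T) hρ (n := 6) (by norm_num) E₆_mem
    (E₆_ne_zero_of_E₄_eq_zero hdiv.zero) fun j j' h => ?_
  rw [ST_denom] at h
  exact rho_add_one_zpow_sep (ST_fixed_eq hρ) (B.wt_even hneg j) (B.wt_even hneg j') h

/-- **Local independence of a graded basis at every point of the upper half plane.** -/
theorem indep_ev (B : GradedBasis Γ wt F) (hneg : -1 ∈ Γ)
    (h6 : ∀ z : ℍ, E₆ z = 0 → ∃ γ : SL(2, ℤ), γ • UpperHalfPlane.I = z)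
    {ρ : ℍ} (hρ : (ModularGroup.S * ModularGroup.T) • ρ = ρ)
    (h4 : ∀ z : ℍ, E₄ z = 0 → ∃ γ : SL(2, ℤ), γ • ρ = z)
    (dI : DivAt Γ UpperHalfPlane.I 6 ⇑E₆) (dρ : DivAt Γ ρ 4 ⇑E₄)
    (dgen : ∀ z₀ : ℍ, E₄ z₀ ≠ 0 → E₆ z₀ ≠ 0 → ∃ (w : ℤ) (P : ℍ → ℂ), DivAt Γ z₀ w P)
    (τ : ℍ) : LinearIndependent ℂ fun j => ev Γ (wt j) τ (F j) := by
  by_cases hτ6 : E₆ τ = 0
  · obtain ⟨γ, rfl⟩ := h6 τ hτ6
    exact indep_smul B.mem γ _ (indep_at_I B hneg dI)
  by_cases hτ4 : E₄ τ = 0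
  · obtain ⟨γ, rfl⟩ := h4 τ hτ4
    exact indep_smul B.mem γ _ (indep_at_rho B hneg hρ dρ)
  obtain ⟨w, P, hP⟩ := dgen τ hτ4 hτ6
  exact indep_generic B hneg hτ4 hτ6 hP

/-- `DivAt` from the captain's `LevelOneDivisor` and `ker_ev`. -/
lemma DivAt.of_levelOneDivisor {z₀ : ℍ} {w : ℤ} {P : ℍ → ℂ} (hP : LevelOneDivisor z₀ w P)
    (hker : ∀ {k : ℤ} {f : ℍ → ℂ}, f ∈ MF Γ k → ev Γ k z₀ f = 0 → ∃ g ∈ MF Γ (k - w), f = P * g) :
    DivAt Γ z₀ w P :=
  ⟨hP.mem, (hP.zero_iff z₀).mpr ⟨1, one_smul _ _⟩, fun _ _ hf h0 => hker hf h0⟩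

/-- `indep_ev` with hypotheses in the shape of the captain's skeleton. -/
theorem indep_ev_of_levelOneDivisor (B : GradedBasis Γ wt F) (hneg : -1 ∈ Γ)
    (hker : ∀ {z₀ : ℍ} {w : ℤ} {P : ℍ → ℂ}, LevelOneDivisor z₀ w P → ∀ {k : ℤ} {f : ℍ → ℂ},
      f ∈ MF Γ k → ev Γ k z₀ f = 0 → ∃ g ∈ MF Γ (k - w), f = P * g)
    (hE6 : LevelOneDivisor UpperHalfPlane.I 6 ⇑E₆)
    {ρ : ℍ} (hρ : (ModularGroup.S * ModularGroup.T) • ρ = ρ)
    (hE4 : LevelOneDivisor ρ 4 ⇑E₄)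
    (hgen : ∀ z₀ : ℍ, E₄ z₀ ≠ 0 → E₆ z₀ ≠ 0 → ∃ (w : ℤ) (P : ℍ → ℂ), LevelOneDivisor z₀ w P)
    (τ : ℍ) : LinearIndependent ℂ fun j => ev Γ (wt j) τ (F j) :=
  indep_ev B hneg (fun z hz => (hE6.zero_iff z).mp hz) hρ (fun z hz => (hE4.zero_iff z).mp hz)
    (DivAt.of_levelOneDivisor hE6 (hker hE6)) (DivAt.of_levelOneDivisor hE4 (hker hE4))
    (fun z₀ h4 h6 => by
      obtain ⟨w, P, hP⟩ := hgen z₀ h4 h6
      exact ⟨w, P, DivAt.of_levelOneDivisor hP (hker hP)⟩) τ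

end Fermat.Agent.S20.H800

noncomputable section

namespace Fermat.Agent.S20.H800

open Fermat.Agent.S20
open UpperHalfPlane ModularForm CongruenceSubgroup MatrixGroups Filter EisensteinSeries
open scoped Manifold Topology Real

variable {Γ : Subgroup SL(2, ℤ)} {J : Type*} {wt : J → ℤ} {F : J → ℍ → ℂ}

/-- A family with linearly independent vectors of conjugates at one point is finite. -/
theorem finite_of_indep [Γ.FiniteIndex] {τ : ℍ}
    (h : LinearIndependent ℂ fun j : J => ev Γ (wt j) τ (F j)) : Finite J := by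
  have : Finite (X Γ) := Subgroup.finite_quotient_of_finiteIndex
  exact h.finite_of_isNoetherian

/-- A family with linearly independent vectors of conjugates at one point has at most
`[SL(2,ℤ) : Γ]` members. -/
theorem card_le_of_indep [Γ.FiniteIndex] [Fintype J] {τ : ℍ}
    (h : LinearIndependent ℂ fun j : J => ev Γ (wt j) τ (F j)) :
    Fintype.card J ≤ Nat.card (X Γ) := by
  have : Finite (X Γ) := Subgroup.finite_quotient_of_finiteIndex
  have : Fintype (X Γ) := Fintype.ofFinite _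
  have h1 := h.fintype_card_le_finrank
  rw [Module.finrank_pi] at h1
  rwa [Nat.card_eq_fintype_card]

/-- Passage from the `Fintype` form (sums over all of `J`) to `GradedBasis`. -/
theorem GradedBasis.of_fintype [Fintype J] (mem : ∀ j, F j ∈ MF Γ (wt j))
    (gen : ∀ (k : ℤ) (f : ℍ → ℂ), f ∈ MF Γ k →
      ∃ c : J → ℍ → ℂ, (∀ j, c j ∈ MF ⊤ (k - wt j)) ∧ f = ∑ j, c j * F j)
    (free : ∀ (k : ℤ) (c : J → ℍ → ℂ), (∀ j, c j ∈ MF ⊤ (k - wt j)) →
      ∑ j, c j * F j = 0 → ∀ j, c j = 0) : GradedBasis Γ wt F := by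
  classical
  refine ⟨mem, fun k f hf => ?_, fun k s c hc hsum j hj => ?_⟩
  · obtain ⟨c, hc, hfc⟩ := gen k f hf
    exact ⟨Finset.univ, c, fun j _ => hc j, hfc⟩
  · have h1 := free k (fun j => if j ∈ s then c j else 0)
      (fun j => by
        split_ifs with h
        · exact hc j h
        · exact Submodule.zero_mem _)
      (by
        have e : ∑ j, (if j ∈ s then c j else 0) * F j = ∑ j ∈ s, c j * F j := by
          rw [← Finset.sum_subset (Finset.subset_univ s)]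
          · exact Finset.sum_congr rfl fun j hj => by rw [if_pos hj]
          · intro j _ hj
            rw [if_neg hj, zero_mul]
        rw [e, hsum]) j
    rwa [if_pos hj] at h1

end Fermat.Agent.S20.H800
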