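import Fermat.Agent.S20.Core

/-!
# S20 / helper800 : basic API for `MF`, `ev` used by the local independence theorem

Private copies (namespace `Fermat.Agent.S20.H800`) of the small C0 facts, so that this package
depends only on `Core.lean`.
-/

set_option autoImplicit false

noncomputable section

namespace Fermat.Agent.S20.H800

open Fermat.Agent.S20
open UpperHalfPlane ModularForm CongruenceSubgroup MatrixGroups Filter EisensteinSeries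
open scoped Manifold Topology Real

variable {Γ : Subgroup SL(2, ℤ)}

lemma ev_mk {k : ℤ} {f : ℍ → ℂ} (hf : ∀ γ ∈ Γ, f ∣[k] γ = f) (g : SL(2, ℤ)) (τ : ℍ) :
    ev Γ k τ f (QuotientGroup.mk g) = (f ∣[k] g⁻¹) τ := by
  rw [ev_apply]
  obtain ⟨γ, hγ⟩ := QuotientGroup.mk_out_eq_mul Γ g
  have h1 : Quotient.out (QuotientGroup.mk g : SL(2, ℤ) ⧸ Γ) = g * γ := hγ
  rw [h1, mul_inv_rev, SlashAction.slash_mul, hf _ (inv_mem γ.2)]

lemma ev_smul {k : ℤ} {f : ℍ → ℂ} (hf : ∀ γ ∈ Γ, f ∣[k] γ = f) (γ : SL(2, ℤ)) (τ : ℍ)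
    (x : X Γ) : ev Γ k (γ • τ) f x = denom γ τ ^ k * ev Γ k τ f (γ⁻¹ • x) := by
  induction x using QuotientGroup.induction_on with
  | H g =>
    rw [MulAction.Quotient.smul_mk, ev_mk hf, ev_mk hf, smul_eq_mul]
    have h : (f ∣[k] g⁻¹) ∣[k] γ = f ∣[k] (γ⁻¹ * g)⁻¹ := by
      rw [← SlashAction.slash_mul]; simp [mul_inv_rev]
    rw [← h, SL_slash_apply (f := f ∣[k] g⁻¹) γ τ, mul_comm, mul_assoc,
      ← zpow_add₀ (denom_ne_zero γ τ)]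
    simp

lemma ev_mul {a k : ℤ} {E : ℍ → ℂ} (hE : ∀ γ : SL(2, ℤ), E ∣[a] γ = E) (f : ℍ → ℂ) (τ : ℍ) :
    ev Γ (a + k) τ (E * f) = E τ • ev Γ k τ f := by
  ext x
  simp only [ev_apply, Pi.smul_apply, smul_eq_mul]
  rw [mul_slash_SL2, hE]
  rfl

lemma ev_sum {ι : Type*} (s : Finset ι) (k : ℤ) (τ : ℍ) (f : ι → ℍ → ℂ) :
    ev Γ k τ (∑ i ∈ s, f i) = ∑ i ∈ s, ev Γ k τ (f i) := map_sum _ _ _

lemma mem_MF_top_slash {a : ℤ} {E : ℍ → ℂ} (hE : E ∈ MF ⊤ a) (γ : SL(2, ℤ)) : E ∣[a] γ = E :=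
  hE.2.1 γ (Subgroup.mem_top γ)

lemma mul_mem_MF {a k : ℤ} {E f : ℍ → ℂ} (hE : E ∈ MF ⊤ a) (hf : f ∈ MF Γ k) :
    E * f ∈ MF Γ (a + k) := by
  refine ⟨hE.1.mul hf.1, fun γ hγ => ?_, fun γ => ?_⟩
  · rw [mul_slash_SL2, mem_MF_top_slash hE, hf.2.1 γ hγ]
  · rw [mul_slash_SL2, mem_MF_top_slash hE]
    have h1 : IsBoundedAtImInfty E := by
      have := hE.2.2 1
      rwa [SlashAction.slash_one] at this
    exact h1.mul (hf.2.2 γ)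

lemma mul_mem_MF' {a k m : ℤ} {E f : ℍ → ℂ} (hE : E ∈ MF ⊤ a) (hf : f ∈ MF Γ k)
    (h : a + k = m) : E * f ∈ MF Γ m := h ▸ mul_mem_MF hE hf

lemma modularForm_mem_MF_top {k : ℤ} (f : ModularForm 𝒮ℒ k) : (⇑f : ℍ → ℂ) ∈ MF ⊤ k := by
  have hinv : ∀ γ : SL(2, ℤ), (⇑f : ℍ → ℂ) ∣[k] γ = f := fun γ => by
    rw [SL_slash]
    exact f.slash_action_eq' _ ⟨γ, rfl⟩
  refine ⟨f.holo', fun γ _ => hinv γ, fun γ => ?_⟩
  rw [hinv]
  exact ModularFormClass.bdd_at_infty f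

lemma E₄_mem : (⇑E₄ : ℍ → ℂ) ∈ MF ⊤ 4 := modularForm_mem_MF_top E₄

lemma E₆_mem : (⇑E₆ : ℍ → ℂ) ∈ MF ⊤ 6 := modularForm_mem_MF_top E₆

lemma one_mem_MF_top : (1 : ℍ → ℂ) ∈ MF ⊤ 0 := by
  refine ⟨mdifferentiable_const, fun γ _ => is_invariant_one γ, fun γ => ?_⟩
  rw [is_invariant_one]
  exact Filter.const_boundedAtFilter _ (1 : ℂ)

lemma pow_mem_MF_top {a : ℤ} {E : ℍ → ℂ} (hE : E ∈ MF ⊤ a) (n : ℕ) : E ^ n ∈ MF ⊤ (n * a) := by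
  induction n with
  | zero => simpa using one_mem_MF_top
  | succ n ih =>
    rw [pow_succ']
    exact mul_mem_MF' hE ih (by push_cast; ring)

end Fermat.Agent.S20.H800
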