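import Mathlib

/-!
# S20 / helper800 : splitting a linear relation between eigenvectors by eigenvalue
-/

set_option autoImplicit false

namespace Fermat.Agent.S20.H800

open Module

/-- If `∑_{j ∈ s} c j • v j = 0` and every `v j` is an eigenvector of `R` with eigenvalue `lam j`,
then for every `μ` the partial sum over the `j` with `lam j = μ` vanishes. -/
theorem sum_filter_eq_zero_of_eigen {V : Type*} [AddCommGroup V] [Module ℂ V]
    (R : V →ₗ[ℂ] V) {J : Type*} (s : Finset J) (v : J → V) (lam : J → ℂ)
    (hv : ∀ j ∈ s, R (v j) = lam j • v j) (c : J → ℂ)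
    (hsum : ∑ j ∈ s, c j • v j = 0) (μ : ℂ) :
    ∑ j ∈ s with lam j = μ, c j • v j = 0 := by
  classical
  set u : ℂ → V := fun ν => ∑ j ∈ s with lam j = ν, c j • v j with hu
  have hmem : ∀ ν, R (u ν) = ν • u ν := by
    intro ν
    simp only [hu, map_sum, map_smul, Finset.smul_sum]
    refine Finset.sum_congr rfl fun j hj => ?_
    rw [Finset.mem_filter] at hj
    rw [hv j hj.1, hj.2, smul_comm]
  have htot : ∑ ν ∈ s.image lam, u ν = 0 := by
    rw [← hsum]
    simp only [hu]
    exact Finset.sum_fiberwise_of_maps_to (g := lam) (fun j hj => Finset.mem_image_of_mem lam hj) _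
  by_contra hne
  set T : Finset ℂ := (s.image lam).filter fun ν => u ν ≠ 0 with hT
  have hμT : μ ∈ T := by
    rw [hT, Finset.mem_filter]
    refine ⟨?_, hne⟩
    by_contra hμ
    apply hne
    show u μ = 0
    simp only [hu]
    apply Finset.sum_eq_zero
    intro j hj
    rw [Finset.mem_filter] at hj
    exact absurd (hj.2 ▸ Finset.mem_image_of_mem lam hj.1) hμ
  have hli : LinearIndependent ℂ (fun ν : T => u ν.1) := by
    refine Module.End.eigenvectors_linearIndependent' R (fun ν : T => ν.1)
      Subtype.coe_injective _ fun ν => ?_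
    have h2 : ν.1 ∈ (s.image lam).filter fun ν => u ν ≠ 0 := ν.2
    rw [Finset.mem_filter] at h2
    exact ⟨Module.End.mem_eigenspace_iff.mpr (hmem ν.1), h2.2⟩
  have hsumT : ∑ ν : T, (1 : ℂ) • u ν.1 = 0 := by
    simp only [one_smul]
    rw [Finset.sum_coe_sort T u, hT, Finset.sum_filter_ne_zero, htot]
  have := (Fintype.linearIndependent_iff.mp hli) (fun _ => 1) hsumT ⟨μ, hμT⟩
  exact one_ne_zero this

end Fermat.Agent.S20.H800
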