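import Fermat.Agent.S20.H800.IndepMain
import Fermat.Agent.S20.Jets_helper759
import Fermat.Agent.S20.L1.Divisors

/-!
# S20 / helper800 : independence of the jets of a graded basis (step (5) of `exists_fundSystem`)
-/

set_option autoImplicit false

noncomputable section

namespace Fermat.Agent.S20.H800

open Fermat.Agent.S20
open UpperHalfPlane ModularForm CongruenceSubgroup MatrixGroups Filter EisensteinSeries
open scoped Manifold Topology Real

local notation "Δ" => ModularForm.discriminant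

variable {Γ : Subgroup SL(2, ℤ)} {J : Type*} {wt : J → ℤ} {F : J → ℍ → ℂ}

lemma hasJet_smul {k : ℤ} {f : ℍ → ℂ} {v : X Γ → ℂ} (c : ℂ) (hv : HasJet Γ k f v) :
    HasJet Γ k (c • f) (c • v) := by
  unfold HasJet at hv ⊢
  have h1 : jetFun Γ k (c • f) = fun τ => c • jetFun Γ k f τ := by
    funext τ
    unfold jetFun
    rw [map_smul, map_smul]
  rw [h1]
  exact hv.const_smul c

lemma hasJet_zero (k : ℤ) : HasJet Γ k 0 0 := by
  unfold HasJet
  have h1 : jetFun Γ k (0 : ℍ → ℂ) = fun _ => 0 := by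
    funext τ
    unfold jetFun
    rw [map_zero, map_zero]
  rw [h1]
  exact tendsto_const_nhds

lemma hasJet_add {k : ℤ} {f g : ℍ → ℂ} {v w : X Γ → ℂ} (hv : HasJet Γ k f v)
    (hw : HasJet Γ k g w) : HasJet Γ k (f + g) (v + w) := by
  unfold HasJet at hv hw ⊢
  have h1 : jetFun Γ k (f + g) = fun τ => jetFun Γ k f τ + jetFun Γ k g τ := by
    funext τ
    unfold jetFun
    rw [map_add, map_add]
  rw [h1]
  exact hv.add hw

lemma hasJet_sum {ι : Type*} (s : Finset ι) {k : ℤ} {f : ι → ℍ → ℂ} {v : ι → X Γ → ℂ}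
    (hv : ∀ i ∈ s, HasJet Γ k (f i) (v i)) : HasJet Γ k (∑ i ∈ s, f i) (∑ i ∈ s, v i) := by
  classical
  induction s using Finset.induction_on with
  | empty => simpa using hasJet_zero (Γ := Γ) k
  | insert i s hi ih =>
    rw [Finset.sum_insert hi, Finset.sum_insert hi]
    exact hasJet_add (hv i (Finset.mem_insert_self i s))
      (ih fun j hj => hv j (Finset.mem_insert_of_mem hj))

/-- Level one forms of even weight `≥ 4` with a non-zero limit at `i∞`. -/
lemma exists_levelOne_tendsto_ne_zero {m : ℤ} (hm : Even m) (hm4 : 4 ≤ m) :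
    ∃ a ∈ MF ⊤ m, ∃ L : ℂ, L ≠ 0 ∧ Tendsto a atImInfty (𝓝 L) := by
  obtain ⟨t, ht⟩ := hm
  rcases Int.even_or_odd' t with ⟨x, hx | hx⟩
  · refine ⟨(⇑E₄ : ℍ → ℂ) ^ x.toNat, ?_, 1, one_ne_zero, ?_⟩
    · have := pow_mem_MF_top E₄_mem x.toNat
      have hx0 : 0 ≤ x := by omega
      have e : ((x.toNat : ℤ)) * 4 = m := by rw [Int.toNat_of_nonneg hx0]; omega
      rwa [e] at this
    · have := L1.tendsto_E₄.pow x.toNat
      rw [one_pow] at this
      exact this
  · refine ⟨(⇑E₄ : ℍ → ℂ) ^ (x - 1).toNat * ⇑E₆, ?_, 1, one_ne_zero, ?_⟩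
    · have h1 := pow_mem_MF_top E₄_mem (x - 1).toNat
      have hx0 : 0 ≤ x - 1 := by omega
      have e : ((x - 1).toNat : ℤ) * 4 + 6 = m := by rw [Int.toNat_of_nonneg hx0]; omega
      exact mul_mem_MF' (Γ := ⊤) h1 E₆_mem e
    · have := (L1.tendsto_E₄.pow (x - 1).toNat).mul L1.tendsto_E₆
      rw [one_pow, one_mul] at this
      exact this

/-- **Independence of the jets of a graded basis.** -/
theorem indep_jet [Γ.FiniteIndex] (B : GradedBasis Γ wt F) (hneg : -1 ∈ Γ)
    (jet : J → X Γ → ℂ) (hjet : ∀ j, HasJet Γ (wt j) (F j) (jet j)) :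
    LinearIndependent ℂ jet := by
  classical
  rw [linearIndependent_iff']
  intro s c hsum
  obtain ⟨M, hM0, hM⟩ := exists_weight_bound s wt
  set K : ℤ := 2 * M + 4 with hK
  have hex : ∀ j, ∃ (a : ℍ → ℂ) (L : ℂ), j ∈ s →
      a ∈ MF ⊤ (K - wt j) ∧ L ≠ 0 ∧ Tendsto a atImInfty (𝓝 L) := by
    intro j
    by_cases hj : j ∈ s
    · have hev : Even (K - wt j) := by
        refine Even.sub ?_ (B.wt_even hneg j)
        exact ⟨M + 2, by rw [hK]; ring⟩
      have hle : 4 ≤ K - wt j := by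
        have := hM j hj
        have := le_abs_self (wt j)
        omega
      obtain ⟨a, ha, L, hL, hT⟩ := exists_levelOne_tendsto_ne_zero hev hle
      exact ⟨a, L, fun _ => ⟨ha, hL, hT⟩⟩
    · exact ⟨0, 0, fun h => absurd h hj⟩
  choose a L haL using hex
  set f : ℍ → ℂ := ∑ j ∈ s, (c j / L j) • (a j * F j) with hf
  have hfmem : f ∈ MF Γ K :=
    Submodule.sum_mem _ fun j hj =>
      Submodule.smul_mem _ _ (mul_mem_MF' (haL j hj).1 (B.mem j) (sub_add_cancel K (wt j)))
  have hjf : HasJet Γ K f 0 := by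
    have h1 : HasJet Γ K f (∑ j ∈ s, (c j / L j) • (L j • jet j)) := by
      refine hasJet_sum s fun j hj => hasJet_smul _ ?_
      have h2 := Jets759.hasJet_mul (Γ := Γ) (haL j hj).1 (hjet j)
      rw [sub_add_cancel,
        show valueAtInfty (a j) = L j from ((haL j hj).2.2).limUnder_eq] at h2
      exact h2
    have h3 : ∑ j ∈ s, (c j / L j) • (L j • jet j) = 0 := by
      rw [← hsum]
      refine Finset.sum_congr rfl fun j hj => ?_
      rw [smul_smul, div_mul_cancel₀ _ (haL j hj).2.1]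
    rwa [h3] at h1
  obtain ⟨g, hg, hfg⟩ := Jets759.ker_jet hfmem hjf
  obtain ⟨s', b, hb, hgb⟩ := B.gen (K - 12) g hg
  set d : J → ℍ → ℂ := fun j =>
    (if j ∈ s then (c j / L j) • a j else 0) - (Δ : ℍ → ℂ) * (if j ∈ s' then b j else 0) with hd
  have hΔ : (Δ : ℍ → ℂ) ∈ MF ⊤ 12 := SF_le_MF _ _ L1.discriminant_mem
  have hdmem : ∀ j ∈ s ∪ s', d j ∈ MF ⊤ (K - wt j) := by
    intro j _
    refine Submodule.sub_mem _ ?_ ?_
    · split_ifs with h
      · exact Submodule.smul_mem _ _ (haL j h).1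
      · exact Submodule.zero_mem _
    · split_ifs with h
      · exact mul_mem_MF' hΔ (hb j h) (by ring)
      · rw [mul_zero]; exact Submodule.zero_mem _
  have hdsum : ∑ j ∈ s ∪ s', d j * F j = 0 := by
    simp only [hd, sub_mul, Finset.sum_sub_distrib]
    have e1 : ∑ j ∈ s ∪ s', (if j ∈ s then (c j / L j) • a j else 0) * F j = f := by
      rw [hf, ← Finset.sum_subset Finset.subset_union_left]
      · refine Finset.sum_congr rfl fun j hj => ?_
        rw [if_pos hj, smul_mul_assoc]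
      · intro j _ hj
        rw [if_neg hj, zero_mul]
    have e2 : ∑ j ∈ s ∪ s', (Δ : ℍ → ℂ) * (if j ∈ s' then b j else 0) * F j = Δ * g := by
      rw [hgb, Finset.mul_sum, ← Finset.sum_subset Finset.subset_union_right]
      · refine Finset.sum_congr rfl fun j hj => ?_
        rw [if_pos hj, mul_assoc]
      · intro j _ hj
        rw [if_neg hj, mul_zero, zero_mul]
    rw [e1, e2, hfg, sub_self]
  have hzero := B.free K (s ∪ s') d hdmem hdsum
  intro j hj
  have h1 := hzero j (Finset.mem_union_left _ hj)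
  simp only [hd, if_pos hj] at h1
  -- `(c j / L j) • a j = Δ * b'`, take limits at `i∞`
  set b' : ℍ → ℂ := if j ∈ s' then b j else 0 with hb'
  have hb'bdd : IsBoundedAtImInfty b' := by
    rw [hb']
    split_ifs with h
    · have := (hb j h).2.2 1
      rwa [SlashAction.slash_one] at this
    · exact zero_form_isBoundedAtImInfty
  have hlim1 : Tendsto ((c j / L j) • a j) atImInfty (𝓝 ((c j / L j) • L j)) :=
    (haL j hj).2.2.const_smul _
  have hlim2 : Tendsto ((Δ : ℍ → ℂ) * b') atImInfty (𝓝 0) := by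
    have hz : IsZeroAtImInfty (Δ : ℍ → ℂ) := L1.tendsto_discriminant
    exact hz.mul_boundedAtFilter hb'bdd
  have h2 : (c j / L j) • a j = (Δ : ℍ → ℂ) * b' := sub_eq_zero.mp h1
  rw [h2] at hlim1
  have h3 := tendsto_nhds_unique hlim1 hlim2
  rw [smul_eq_mul, div_mul_cancel₀ _ (haL j hj).2.1] at h3
  exact h3

end Fermat.Agent.S20.H800
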