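import Fermat.Agent.S20.H800.Basic
import Fermat.Agent.S20.H800.EigenSplit

/-!
# S20 / helper800 : local independence of a graded basis (steps (4) of `exists_fundSystem`)

`GradedBasis Γ wt F` : the family `F j ∈ MF Γ (wt j)` (any index type) generates `⊕ₖ MF Γ k` over the
level one forms and is free over them (finite sums).

`DivAt Γ z₀ w P` : `P` is a level one form of weight `w` vanishing at `z₀` such that every
`f ∈ MF Γ k` all of whose conjugates vanish at `z₀` is divisible by `P` in `MF Γ`.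

Main result `indep_ev` : the vectors of conjugates `ev Γ (wt j) τ (F j)` are linearly independent at
every `τ`.
-/

set_option autoImplicit false

noncomputable section

namespace Fermat.Agent.S20.H800

open Fermat.Agent.S20
open UpperHalfPlane ModularForm CongruenceSubgroup MatrixGroups Filter EisensteinSeries
open scoped Manifold Topology Real

/-- A homogeneous family generating `⊕ₖ MF Γ k` freely over the level one forms. -/
structure GradedBasis (Γ : Subgroup SL(2, ℤ)) {J : Type*} (wt : J → ℤ) (F : J → ℍ → ℂ) :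
    Prop where
  mem : ∀ j, F j ∈ MF Γ (wt j)
  gen : ∀ (k : ℤ) (f : ℍ → ℂ), f ∈ MF Γ k →
    ∃ (s : Finset J) (c : J → ℍ → ℂ), (∀ j ∈ s, c j ∈ MF ⊤ (k - wt j)) ∧ f = ∑ j ∈ s, c j * F j
  free : ∀ (k : ℤ) (s : Finset J) (c : J → ℍ → ℂ), (∀ j ∈ s, c j ∈ MF ⊤ (k - wt j)) →
    ∑ j ∈ s, c j * F j = 0 → ∀ j ∈ s, c j = 0

/-- Division property at the fibre over `z₀`. -/
structure DivAt (Γ : Subgroup SL(2, ℤ)) (z₀ : ℍ) (w : ℤ) (P : ℍ → ℂ) : Prop where
  mem : P ∈ MF ⊤ w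
  zero : P z₀ = 0
  div : ∀ (k : ℤ) (f : ℍ → ℂ), f ∈ MF Γ k → ev Γ k z₀ f = 0 → ∃ g ∈ MF Γ (k - w), f = P * g

variable {Γ : Subgroup SL(2, ℤ)} {J : Type*} {wt : J → ℤ} {F : J → ℍ → ℂ}

/-- The core argument: division + generation + freeness. -/
theorem core_indep (B : GradedBasis Γ wt F) {z₀ : ℍ} {w : ℤ} {P : ℍ → ℂ}
    (hdiv : DivAt Γ z₀ w P) (s : Finset J) (c : J → ℂ) (K : ℤ) (a : J → ℍ → ℂ)
    (ha : ∀ j ∈ s, a j ∈ MF ⊤ (K - wt j)) (ha0 : ∀ j ∈ s, a j z₀ ≠ 0)
    (hsum : ∑ j ∈ s, c j • ev Γ (wt j) z₀ (F j) = 0) : ∀ j ∈ s, c j = 0 := by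
  classical
  set f : ℍ → ℂ := ∑ j ∈ s, (c j / a j z₀) • (a j * F j) with hf
  have hfmem : f ∈ MF Γ K :=
    Submodule.sum_mem _ fun j hj =>
      Submodule.smul_mem _ _ (mul_mem_MF' (ha j hj) (B.mem j) (sub_add_cancel K (wt j)))
  have hev : ev Γ K z₀ f = 0 := by
    rw [hf, map_sum, ← hsum]
    refine Finset.sum_congr rfl fun j hj => ?_
    have h1 : ev Γ K z₀ (a j * F j) = a j z₀ • ev Γ (wt j) z₀ (F j) := by
      have := ev_mul (Γ := Γ) (a := K - wt j) (k := wt j)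
        (fun γ => mem_MF_top_slash (ha j hj) γ) (F j) z₀
      rwa [sub_add_cancel] at this
    rw [map_smul, h1, smul_smul, div_mul_cancel₀ _ (ha0 j hj)]
  obtain ⟨g, hg, hfg⟩ := hdiv.div K f hfmem hev
  obtain ⟨s', b, hb, hgb⟩ := B.gen (K - w) g hg
  set d : J → ℍ → ℂ := fun j =>
    (if j ∈ s then (c j / a j z₀) • a j else 0) - P * (if j ∈ s' then b j else 0) with hd
  have hdmem : ∀ j ∈ s ∪ s', d j ∈ MF ⊤ (K - wt j) := by
    intro j _
    refine Submodule.sub_mem _ ?_ ?_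
    · split_ifs with h
      · exact Submodule.smul_mem _ _ (ha j h)
      · exact Submodule.zero_mem _
    · split_ifs with h
      · exact mul_mem_MF' hdiv.mem (hb j h) (by ring)
      · rw [mul_zero]; exact Submodule.zero_mem _
  have hdsum : ∑ j ∈ s ∪ s', d j * F j = 0 := by
    simp only [hd, sub_mul, Finset.sum_sub_distrib]
    have e1 : ∑ j ∈ s ∪ s', (if j ∈ s then (c j / a j z₀) • a j else 0) * F j = f := by
      rw [hf, ← Finset.sum_subset Finset.subset_union_left]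
      · refine Finset.sum_congr rfl fun j hj => ?_
        rw [if_pos hj, smul_mul_assoc]
      · intro j _ hj
        rw [if_neg hj, zero_mul]
    have e2 : ∑ j ∈ s ∪ s', P * (if j ∈ s' then b j else 0) * F j = P * g := by
      rw [hgb, Finset.mul_sum, ← Finset.sum_subset Finset.subset_union_right]
      · refine Finset.sum_congr rfl fun j hj => ?_
        rw [if_pos hj, mul_assoc]
      · intro j _ hj
        rw [if_neg hj, mul_zero, zero_mul]
    rw [e1, e2, hfg, sub_self]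
  have hzero := B.free K (s ∪ s') d hdmem hdsum
  intro j hj
  have h1 := congrFun (hzero j (Finset.mem_union_left _ hj)) z₀
  simp only [hd, if_pos hj, Pi.sub_apply, Pi.smul_apply, Pi.mul_apply, hdiv.zero, zero_mul,
    sub_zero, smul_eq_mul, Pi.zero_apply] at h1
  rwa [div_mul_cancel₀ _ (ha0 j hj)] at h1

end Fermat.Agent.S20.H800

noncomputable section

namespace Fermat.Agent.S20.H800

open Fermat.Agent.S20
open UpperHalfPlane ModularForm CongruenceSubgroup MatrixGroups Filter EisensteinSeries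
open scoped Manifold Topology Real

variable {Γ : Subgroup SL(2, ℤ)} {J : Type*} {wt : J → ℤ} {F : J → ℍ → ℂ}

lemma GradedBasis.F_ne_zero (B : GradedBasis Γ wt F) (j : J) : F j ≠ 0 := by
  intro h
  have h1 := B.free (wt j) {j} (fun _ => 1)
    (by
      intro i hi
      rw [Finset.mem_singleton] at hi
      subst hi
      simpa using one_mem_MF_top)
    (by simp [h]) j (Finset.mem_singleton_self j)
  exact one_ne_zero (congrFun h1 UpperHalfPlane.I)

lemma slash_neg_one_apply (k : ℤ) (f : ℍ → ℂ) (τ : ℍ) :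
    (f ∣[k] (-1 : SL(2, ℤ))) τ = f τ * (-1) ^ (-k) := by
  rw [SL_slash_apply]
  have h1 : (-1 : SL(2, ℤ)) • τ = τ := by
    rw [ModularGroup.SL_neg_smul, one_smul]
  have h2 : denom (-1 : SL(2, ℤ)) τ = -1 := by
    rw [ModularGroup.denom_apply]
    simp
  rw [h1, h2]

lemma GradedBasis.wt_even (B : GradedBasis Γ wt F) (hneg : -1 ∈ Γ) (j : J) : Even (wt j) := by
  by_contra hodd
  rw [Int.not_even_iff_odd] at hodd
  apply B.F_ne_zero j
  funext τ
  have h := congrFun ((B.mem j).2.1 (-1) hneg) τ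
  rw [slash_neg_one_apply, Odd.neg_one_zpow (by simpa using hodd)] at h
  have h2 : 2 * F j τ = 0 := by linear_combination -h
  simpa using h2

/-- Independence of the vectors of conjugates is invariant under moving the base point. -/
lemma indep_smul (hF : ∀ j, F j ∈ MF Γ (wt j)) (γ : SL(2, ℤ)) (τ : ℍ)
    (h : LinearIndependent ℂ fun j => ev Γ (wt j) τ (F j)) :
    LinearIndependent ℂ fun j => ev Γ (wt j) (γ • τ) (F j) := by
  set R : (X Γ → ℂ) →ₗ[ℂ] (X Γ → ℂ) := LinearMap.funLeft ℂ ℂ (fun x : X Γ => γ⁻¹ • x) with hR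
  have hRinj : Function.Injective R :=
    LinearMap.funLeft_injective_of_surjective ℂ ℂ _ (MulAction.surjective γ⁻¹)
  have h1 : LinearIndependent ℂ fun j => R (ev Γ (wt j) τ (F j)) :=
    h.map' R (LinearMap.ker_eq_bot.mpr hRinj)
  have h2 := h1.units_smul fun j => Units.mk0 (denom γ τ ^ wt j) (zpow_ne_zero _ (denom_ne_zero γ τ))
  convert h2 using 1
  funext j
  funext x
  rw [ev_smul (hF j).2.1]
  simp [hR, LinearMap.funLeft_apply, Units.smul_def]

lemma exists_levelOne_ne_zero {τ : ℍ} (h4 : E₄ τ ≠ 0) (h6 : E₆ τ ≠ 0) {m : ℤ} (hm : Even m)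
    (hm4 : 4 ≤ m) : ∃ a ∈ MF ⊤ m, a τ ≠ 0 := by
  obtain ⟨t, ht⟩ := hm
  rcases Int.even_or_odd' t with ⟨x, hx | hx⟩
  · refine ⟨(⇑E₄ : ℍ → ℂ) ^ x.toNat, ?_, ?_⟩
    · have := pow_mem_MF_top E₄_mem x.toNat
      have hx0 : 0 ≤ x := by omega
      have e : ((x.toNat : ℤ)) * 4 = m := by rw [Int.toNat_of_nonneg hx0]; omega
      rwa [e] at this
    · rw [Pi.pow_apply]
      exact pow_ne_zero _ h4
  · refine ⟨(⇑E₄ : ℍ → ℂ) ^ (x - 1).toNat * ⇑E₆, ?_, ?_⟩
    · have h1 := pow_mem_MF_top E₄_mem (x - 1).toNat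
      have hx0 : 0 ≤ x - 1 := by omega
      have e : ((x - 1).toNat : ℤ) * 4 + 6 = m := by rw [Int.toNat_of_nonneg hx0]; omega
      have h2 := mul_mem_MF' (Γ := ⊤) h1 E₆_mem e
      exact h2
    · rw [Pi.mul_apply, Pi.pow_apply]
      exact mul_ne_zero (pow_ne_zero _ h4) h6

lemma exists_weight_bound (s : Finset J) (wt : J → ℤ) :
    ∃ M : ℤ, 0 ≤ M ∧ ∀ j ∈ s, |wt j| ≤ M :=
  ⟨∑ j ∈ s, |wt j|, Finset.sum_nonneg fun _ _ => abs_nonneg _,
    fun _ hj => Finset.single_le_sum (f := fun j => |wt j|) (fun _ _ => abs_nonneg _) hj⟩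

/-- Local independence at a point which is not a zero of `E₄` or `E₆`. -/
theorem indep_generic (B : GradedBasis Γ wt F) (hneg : -1 ∈ Γ) {τ : ℍ} (h4 : E₄ τ ≠ 0)
    (h6 : E₆ τ ≠ 0) {w : ℤ} {P : ℍ → ℂ} (hdiv : DivAt Γ τ w P) :
    LinearIndependent ℂ fun j => ev Γ (wt j) τ (F j) := by
  rw [linearIndependent_iff']
  intro s c hsum
  obtain ⟨M, hM0, hM⟩ := exists_weight_bound s wt
  set K : ℤ := 2 * M + 4 with hK
  have hex : ∀ j, ∃ a : ℍ → ℂ, j ∈ s → a ∈ MF ⊤ (K - wt j) ∧ a τ ≠ 0 := by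
    intro j
    by_cases hj : j ∈ s
    · have hev : Even (K - wt j) := by
        refine Even.sub ?_ (B.wt_even hneg j)
        exact ⟨M + 2, by rw [hK]; ring⟩
      have hle : 4 ≤ K - wt j := by
        have := hM j hj
        have := le_abs_self (wt j)
        omega
      obtain ⟨a, ha, ha0⟩ := exists_levelOne_ne_zero h4 h6 hev hle
      exact ⟨a, fun _ => ⟨ha, ha0⟩⟩
    · exact ⟨0, fun h => absurd h hj⟩
  choose a ha using hex
  exact core_indep B hdiv s c K a (fun j hj => (ha j hj).1) (fun j hj => (ha j hj).2) hsum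

/-- Local independence at a point fixed by `γ₀`, when the eigenvalue `denom γ₀ z₀ ^ wt j` determines
the weight modulo `n` and there is a level one form of weight `n` not vanishing at `z₀`. -/
theorem indep_fixed (B : GradedBasis Γ wt F) {z₀ : ℍ} {w : ℤ} {P : ℍ → ℂ}
    (hdiv : DivAt Γ z₀ w P) (γ₀ : SL(2, ℤ)) (hfix : γ₀ • z₀ = z₀) {n : ℤ} (hn : 0 < n)
    {A : ℍ → ℂ} (hA : A ∈ MF ⊤ n) (hA0 : A z₀ ≠ 0)
    (hsep : ∀ j j', denom γ₀ z₀ ^ wt j = denom γ₀ z₀ ^ wt j' → n ∣ wt j - wt j') :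
    LinearIndependent ℂ fun j => ev Γ (wt j) z₀ (F j) := by
  classical
  rw [linearIndependent_iff']
  intro s c hsum j₀ hj₀
  set R : (X Γ → ℂ) →ₗ[ℂ] (X Γ → ℂ) := LinearMap.funLeft ℂ ℂ (fun x : X Γ => γ₀⁻¹ • x) with hR
  set ε : ℂ := denom γ₀ z₀ with hε
  have hε0 : ε ≠ 0 := denom_ne_zero γ₀ z₀
  set lam : J → ℂ := fun j => (ε ^ wt j)⁻¹ with hlam
  have hv : ∀ j ∈ s, R (ev Γ (wt j) z₀ (F j)) = lam j • ev Γ (wt j) z₀ (F j) := by
    intro j _
    funext x
    have h1 := ev_smul (B.mem j).2.1 γ₀ z₀ x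
    rw [hfix] at h1
    simp only [hR, LinearMap.funLeft_apply, Pi.smul_apply, smul_eq_mul, hlam]
    rw [h1, ← mul_assoc, inv_mul_cancel₀ (zpow_ne_zero _ hε0), one_mul]
  have hsplit := sum_filter_eq_zero_of_eigen R s (fun j => ev Γ (wt j) z₀ (F j)) lam hv c hsum
    (lam j₀)
  set s₀ : Finset J := s.filter fun j => lam j = lam j₀ with hs₀
  have hdvd : ∀ j ∈ s₀, n ∣ wt j - wt j₀ := by
    intro j hj
    rw [hs₀, Finset.mem_filter] at hj
    exact hsep j j₀ (inv_injective hj.2)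
  obtain ⟨M, hM0, hM⟩ := exists_weight_bound s₀ (fun j => wt j - wt j₀)
  set K : ℤ := wt j₀ + n * M with hK
  have hKdvd : ∀ j ∈ s₀, n ∣ K - wt j := by
    intro j hj
    have := hdvd j hj
    have e : K - wt j = n * M - (wt j - wt j₀) := by rw [hK]; ring
    rw [e]
    exact Dvd.dvd.sub (Dvd.intro _ rfl) this
  have hKnn : ∀ j ∈ s₀, 0 ≤ K - wt j := by
    intro j hj
    have h1 := hM j hj
    have h2 := le_abs_self (wt j - wt j₀)
    have h3 : M ≤ n * M := by nlinarith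
    rw [hK]
    linarith
  set a : J → ℍ → ℂ := fun j => A ^ ((K - wt j) / n).toNat with ha
  have hamem : ∀ j ∈ s₀, a j ∈ MF ⊤ (K - wt j) := by
    intro j hj
    have h1 := pow_mem_MF_top hA ((K - wt j) / n).toNat
    have h2 : 0 ≤ (K - wt j) / n := Int.ediv_nonneg (hKnn j hj) hn.le
    have e : (((K - wt j) / n).toNat : ℤ) * n = K - wt j := by
      rw [Int.toNat_of_nonneg h2, Int.ediv_mul_cancel (hKdvd j hj)]
    rwa [e] at h1
  have ha0 : ∀ j ∈ s₀, a j z₀ ≠ 0 := by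
    intro j _
    show (A ^ ((K - wt j) / n).toNat) z₀ ≠ 0
    rw [Pi.pow_apply]
    exact pow_ne_zero _ hA0
  have hj₀' : j₀ ∈ s₀ := by
    rw [hs₀, Finset.mem_filter]
    exact ⟨hj₀, rfl⟩
  exact core_indep B hdiv s₀ c K a hamem ha0 hsplit j₀ hj₀'

end Fermat.Agent.S20.H800
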